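/-
S56, node [GW-EC], cell [EC-MULT] (prefix `s56emg_`, Mathlib only), part V: the multiplicity
calculus `h_X(A) := Nat.card (X →+[B] A)` in `DistribMulAction` vocabulary (interface of
[EC-BASE]): `B` a finite group, `p ∤ #B`.

* (M1) `s56emg_hx_ses`: `h_X(V) = h_X(V') * h_X(V'')` for equivariant exact `0 → V' → V → V'' → 0`, `pV = 0`;
* (M2) `s56emg_hx_ker_range`: kernel–range form through models of the kernel and the range;
* (M3) `s56emg_hx_herbrand`: `h_X(C/p) = h_X(C)` for a finite `B`-module `C` and `pX = 0`;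
* `s56emg_hx_torsion`: `h_X(M) = h_X(M[p])` for `pX = 0`.
-/
import Mathlib
import Fermat.Agent.S56.GW.EC.Mult.G.Compat

set_option autoImplicit false
set_option linter.style.haveILetI false
set_option linter.unusedSectionVars false

namespace Fermat.Agent.S56

open MonoidAlgebra

section bself

variable {C : Type} [Group C] {p : ℕ}
variable (T : Type*) [AddCommGroup T] [Module (MonoidAlgebra ℤ C) T]
variable (X : Type*) [AddCommGroup X] [Module (MonoidAlgebra ℤ C) X]

/-- if `pX = 0` then `Hom_Λ(X, T[p]) = Hom_Λ(X, T)` -/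
theorem s56emg_b_eq_h (hX : ∀ x : X, p • x = 0) : s56emg_b C p T X = s56emg_h C X T := by
  unfold s56emg_b s56emg_h
  refine Nat.card_congr
    { toFun := fun f => (s56emg_K C p T).subtype.comp f
      invFun := fun g => g.codRestrict (s56emg_K C p T) (fun x => by
        rw [LinearMap.mem_ker, s56emg_mulp_apply, ← map_nsmul, hX, map_zero])
      left_inv := fun f => by ext x; rfl
      right_inv := fun g => by ext x; rfl }

end bself

section hx

variable {B : Type} [Group B] [Finite B] {p : ℕ} [Fact p.Prime]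
variable (X : Type*) [AddCommGroup X] [DistribMulAction B X]

/-- **(M1)** multiplicativity of `h_X` on equivariant short exact sequences killed by `p` -/
theorem s56emg_hx_ses (hpB : ¬ p ∣ Nat.card B)
    {V' V V'' : Type*} [AddCommGroup V'] [DistribMulAction B V'] [AddCommGroup V]
    [DistribMulAction B V] [AddCommGroup V''] [DistribMulAction B V'']
    (hV : ∀ v : V, p • v = 0) (i : V' →+ V) (π : V →+ V'')
    (hie : ∀ (b : B) (v : V'), i (b • v) = b • i v) (hπe : ∀ (b : B) (v : V), π (b • v) = b • π v)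
    (hi : Function.Injective i) (hex : ∀ v, π v = 0 ↔ ∃ v', i v' = v)
    (hπ : Function.Surjective π) :
    Nat.card (X →+[B] V) = Nat.card (X →+[B] V') * Nat.card (X →+[B] V'') := by
  letI := s56emg_mod B X
  letI := s56emg_mod B V'
  letI := s56emg_mod B V
  letI := s56emg_mod B V''
  letI := Fintype.ofFinite B
  have hpC : ¬ p ∣ Fintype.card B := by rwa [← Nat.card_eq_fintype_card]
  have cX := s56emg_mod_compat B X
  have c' := s56emg_mod_compat B V'
  have c := s56emg_mod_compat B V
  have c'' := s56emg_mod_compat B V''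
  let i' : V' →ₗ[MonoidAlgebra ℤ B] V := s56emg_mkLin i (fun b x => by rw [c', c]; exact hie b x)
  let π' : V →ₗ[MonoidAlgebra ℤ B] V'' := s56emg_mkLin π (fun b x => by rw [c, c'']; exact hπe b x)
  have hV'' : ∀ v : V'', p • v = 0 := by
    intro v
    obtain ⟨w, rfl⟩ := hπ v
    rw [← map_nsmul, hV, map_zero]
  rw [s56emg_card_hom cX c, s56emg_card_hom cX c', s56emg_card_hom cX c'']
  exact s56emg_h_ses X hpC hV hV'' i' π' hi (fun v => hex v) hπ

/-- **(M2)** kernel–range form: `f : V → W` equivariant, `pV = 0`, `(K', ι)` a model of `ker f`,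
`(R', j)` a model of `range f`. -/
theorem s56emg_hx_ker_range (hpB : ¬ p ∣ Nat.card B)
    {V W K' R' : Type*} [AddCommGroup V] [DistribMulAction B V] [AddCommGroup W]
    [DistribMulAction B W] [AddCommGroup K'] [DistribMulAction B K'] [AddCommGroup R']
    [DistribMulAction B R']
    (hV : ∀ v : V, p • v = 0) (f : V →+ W) (hfe : ∀ (b : B) (v : V), f (b • v) = b • f v)
    (ι : K' →+ V) (hιe : ∀ (b : B) (k : K'), ι (b • k) = b • ι k) (hι : Function.Injective ι)
    (hιr : ∀ v, f v = 0 ↔ ∃ k, ι k = v)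
    (j : R' →+ W) (hje : ∀ (b : B) (r : R'), j (b • r) = b • j r) (hj : Function.Injective j)
    (hjr : ∀ w, (∃ v, f v = w) ↔ ∃ r, j r = w) :
    Nat.card (X →+[B] V) = Nat.card (X →+[B] K') * Nat.card (X →+[B] R') := by
  have hex : ∀ v, ∃ r, j r = f v := fun v => (hjr (f v)).mp ⟨v, rfl⟩
  choose g hg using hex
  let π : V →+ R' :=
    { toFun := g
      map_zero' := by apply hj; rw [hg, map_zero, map_zero]
      map_add' := fun v w => by apply hj; rw [hg, map_add, map_add, hg, hg] }
  have hπ_apply : ∀ v, j (π v) = f v := hg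
  refine s56emg_hx_ses X hpB hV ι π hιe ?_ hι ?_ ?_
  · intro b v
    apply hj
    rw [hπ_apply, hje, hπ_apply, hfe]
  · intro v
    rw [← hιr]
    constructor
    · intro h
      rw [← hπ_apply, h, map_zero]
    · intro h
      apply hj
      rw [hπ_apply, h, map_zero]
  · intro r
    obtain ⟨v, hv⟩ := (hjr (j r)).mpr ⟨r, rfl⟩
    refine ⟨v, ?_⟩
    apply hj
    rw [hπ_apply, hv]

/-- for `pX = 0`: `h_X(M) = h_X(K)` for any model `K` of `M[p]` -/
theorem s56emg_hx_torsion (hX : ∀ x : X, p • x = 0)
    {M K : Type*} [AddCommGroup M] [DistribMulAction B M] [AddCommGroup K] [DistribMulAction B K]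
    (ι : K →+[B] M) (hι : Function.Injective ι) (hr : ∀ t, p • t = 0 ↔ ∃ k, ι k = t) :
    Nat.card (X →+[B] M) = Nat.card (X →+[B] K) := by
  letI := s56emg_mod B X
  letI := s56emg_mod B M
  have cX := s56emg_mod_compat B X
  have cM := s56emg_mod_compat B M
  rw [s56emg_card_hom cX cM, ← s56emg_b_eq_h (p := p) M X hX, s56emg_b_eval X cM cX ι hι hr]

/-- **(M3)** Herbrand: for a finite `B`-module `C`, a model `(Q, q)` of `C/p` and `pX = 0`:
`h_X(Q) = h_X(C)`. -/
theorem s56emg_hx_herbrand [Finite X] (hpB : ¬ p ∣ Nat.card B) (hX : ∀ x : X, p • x = 0)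
    {C : Type} [AddCommGroup C] [DistribMulAction B C] [Finite C]
    {Q : Type*} [AddCommGroup Q] [DistribMulAction B Q]
    (q : C →+[B] Q) (hq : Function.Surjective q) (hker : ∀ c, q c = 0 ↔ ∃ c', c = p • c') :
    Nat.card (X →+[B] Q) = Nat.card (X →+[B] C) := by
  letI := s56emg_mod B X
  letI := s56emg_mod B C
  letI := Fintype.ofFinite B
  have hpC : ¬ p ∣ Fintype.card B := by rwa [← Nat.card_eq_fintype_card]
  have cX := s56emg_mod_compat B X
  have cC := s56emg_mod_compat B C
  haveI : Module.Finite ℤ C := Module.Finite.of_finite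
  have h1 : s56emg_mu B p C X = 1 := s56emg_mu_of_finite (p := p) X hpC _ C rfl
  have hb := s56emg_b_pos (C := B) (p := p) X C
  unfold s56emg_mu at h1
  have hb0 : (s56emg_b B p C X : ℚ) ≠ 0 := by positivity
  have h2 : (s56emg_a B p C X : ℚ) = s56emg_b B p C X := by
    rwa [div_eq_one_iff_eq hb0] at h1
  have h3 : s56emg_a B p C X = s56emg_b B p C X := by exact_mod_cast h2
  rw [← s56emg_a_eval X cC cX q hq hker, h3, s56emg_b_eq_h C X hX, s56emg_card_hom cX cC]

end hx

end Fermat.Agent.S56
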