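/-
S56, node [GW-EC], cell [EC-MULT] (prefix `s56emg_`, Mathlib only), part VII: inequalities for
`h_X(A) = Nat.card (X →+[B] A)`.

* `s56emg_hx_finite`: `X →+[B] A` is finite for finite `X`, `A`;
* `s56emg_hx_pos`: `0 < h_X(A)` for finite `X`, `A`;
* `s56emg_hx_mono`: `h_X(A) ≤ h_X(C)` for an equivariant injection `A ↪ C`, `C` finite;
* `s56emg_hx_le`: `h_X(V) ≤ h_X(V') * h_X(V'')` for an equivariant exact `0 → V' → V → V''`
  (NO surjectivity on the right), `V'`, `V''` finite  (left exactness of `Hom_B(X, -)`: no
  hypothesis on `p` or `#B`).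
-/
import Mathlib
import Fermat.Agent.S56.GW.EC.Mult.Hx

set_option autoImplicit false
set_option linter.style.haveILetI false
set_option linter.unusedSectionVars false

namespace Fermat.Agent.S56

section ineq

variable {B : Type*} [Monoid B]
variable (X : Type*) [AddCommGroup X] [DistribMulAction B X]

instance s56emg_hx_finite [Finite X] {A : Type*} [AddCommGroup A] [DistribMulAction B A]
    [Finite A] : Finite (X →+[B] A) :=
  Finite.of_injective (fun f : X →+[B] A => (f : X → A)) DFunLike.coe_injective

theorem s56emg_hx_pos [Finite X] {A : Type*} [AddCommGroup A] [DistribMulAction B A] [Finite A] :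
    0 < Nat.card (X →+[B] A) := by
  haveI : Nonempty (X →+[B] A) := ⟨0⟩
  exact Nat.card_pos

/-- post-composition with an equivariant additive map -/
def s56emg_postcomp {A C : Type*} [AddCommGroup A] [DistribMulAction B A] [AddCommGroup C]
    [DistribMulAction B C] (j : A →+ C) (hje : ∀ (b : B) (a : A), j (b • a) = b • j a)
    (f : X →+[B] A) : X →+[B] C :=
  { toFun := fun x => j (f x)
    map_smul' := fun b x => by
      show j (f (b • x)) = b • j (f x)
      rw [map_smul, hje]
    map_zero' := by rw [map_zero, map_zero]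
    map_add' := fun x y => by rw [map_add, map_add] }

@[simp] theorem s56emg_postcomp_apply {A C : Type*} [AddCommGroup A] [DistribMulAction B A]
    [AddCommGroup C] [DistribMulAction B C] (j : A →+ C)
    (hje : ∀ (b : B) (a : A), j (b • a) = b • j a) (f : X →+[B] A) (x : X) :
    s56emg_postcomp X j hje f x = j (f x) := rfl

/-- monotonicity of `h_X` along equivariant injections -/
theorem s56emg_hx_mono [Finite X] {A C : Type*} [AddCommGroup A] [DistribMulAction B A]
    [AddCommGroup C] [DistribMulAction B C] [Finite C]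
    (j : A →+ C) (hje : ∀ (b : B) (a : A), j (b • a) = b • j a) (hj : Function.Injective j) :
    Nat.card (X →+[B] A) ≤ Nat.card (X →+[B] C) := by
  refine Nat.card_le_card_of_injective (s56emg_postcomp X j hje) ?_
  intro f g hfg
  ext x
  apply hj
  have := congrArg (fun φ : X →+[B] C => φ x) hfg
  exact this

/-- left exactness: `h_X(V) ≤ h_X(V') * h_X(V'')` for `V' → V → V''` exact at `V`
(every `v` killed by `π` comes from `V'`), `V''` finite. -/
theorem s56emg_hx_le [Finite X] {V' V V'' : Type*} [AddCommGroup V'] [DistribMulAction B V']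
    [AddCommGroup V] [DistribMulAction B V] [AddCommGroup V''] [DistribMulAction B V'']
    [Finite V'] [Finite V'']
    (i : V' →+ V) (π : V →+ V'')
    (hie : ∀ (b : B) (v : V'), i (b • v) = b • i v) (hπe : ∀ (b : B) (v : V), π (b • v) = b • π v)
    (hi : Function.Injective i) (hex : ∀ v, π v = 0 → ∃ v', i v' = v) :
    Nat.card (X →+[B] V) ≤ Nat.card (X →+[B] V') * Nat.card (X →+[B] V'') := by
  classical
  -- the fibres of `f ↦ π ∘ f` inject into `Hom(X, V')`
  have hfib : ∀ f₀ : X →+[B] V, ∀ f : X →+[B] V,
      s56emg_postcomp X π hπe f = s56emg_postcomp X π hπe f₀ →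
      ∃ h : X →+[B] V', ∀ x, i (h x) = f x - f₀ x := by
    intro f₀ f hf
    have hx : ∀ x, ∃ v', i v' = f x - f₀ x := by
      intro x
      apply hex
      have := congrArg (fun φ : X →+[B] V'' => φ x) hf
      simp only [s56emg_postcomp_apply] at this
      rw [map_sub, this, sub_self]
    choose h hh using hx
    refine ⟨{ toFun := h
              map_smul' := fun b x => ?_
              map_zero' := ?_
              map_add' := fun x y => ?_ }, hh⟩
    · apply hi
      show i (h (b • x)) = i (b • h x)
      rw [hh, hie, hh, map_smul, map_smul, smul_sub]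
    · apply hi
      rw [hh, map_zero, map_zero, map_zero, sub_zero]
    · apply hi
      show i (h (x + y)) = i (h x + h y)
      rw [hh, map_add i, hh, hh, map_add, map_add]
      abel
  haveI : Finite (X →+[B] V') := s56emg_hx_finite X
  haveI : Finite (X →+[B] V'') := s56emg_hx_finite X
  -- a section of `f ↦ π ∘ f` on its range
  let R := Set.range (s56emg_postcomp X π hπe)
  have hsec : ∀ r : R, ∃ f₀ : X →+[B] V, s56emg_postcomp X π hπe f₀ = r.1 := fun r => r.2
  choose σ hσ using hsec
  have hdiff : ∀ f : X →+[B] V, ∃ h : X →+[B] V', ∀ x, i (h x) =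
      f x - σ ⟨s56emg_postcomp X π hπe f, ⟨f, rfl⟩⟩ x := by
    intro f
    exact hfib _ f (hσ ⟨s56emg_postcomp X π hπe f, ⟨f, rfl⟩⟩).symm
  choose d hd using hdiff
  let Ψ : (X →+[B] V) → (X →+[B] V') × (X →+[B] V'') :=
    fun f => (d f, s56emg_postcomp X π hπe f)
  have hΨ : Function.Injective Ψ := by
    intro f g hfg
    have h1 : d f = d g := congrArg Prod.fst hfg
    have h2 : s56emg_postcomp X π hπe f = s56emg_postcomp X π hπe g := congrArg Prod.snd hfg
    ext x
    have e1 := hd f x
    have e2 := hd g x
    have hσeq : σ ⟨s56emg_postcomp X π hπe f, ⟨f, rfl⟩⟩ = σ ⟨s56emg_postcomp X π hπe g, ⟨g, rfl⟩⟩ := by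
      congr 1
      exact Subtype.ext h2
    rw [← h1, ← hσeq] at e2
    have : f x - σ ⟨s56emg_postcomp X π hπe f, ⟨f, rfl⟩⟩ x =
        g x - σ ⟨s56emg_postcomp X π hπe f, ⟨f, rfl⟩⟩ x := by rw [← e1, ← e2]
    exact sub_left_injective this
  calc Nat.card (X →+[B] V) ≤ Nat.card ((X →+[B] V') × (X →+[B] V'')) :=
        Nat.card_le_card_of_injective Ψ hΨ
    _ = Nat.card (X →+[B] V') * Nat.card (X →+[B] V'') := Nat.card_prod _ _

end ineq

end Fermat.Agent.S56
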