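/-
S56, node [GW-EC], cell [EC-MULT] (prefix `s56emg_`), part IV: the additive invariant.

For a finite group `B`, a prime `p ∤ #B` and a finite abelian group `X` with `B`-action,
`μ_X(M) := #Hom_B(X, M/p) / #Hom_B(X, M[p])` is an additive invariant (`s56ecu_AddInv`, value group
`Additive ℚˣ`) of finitely generated abelian groups with `B`-action.  Together with helper4's
`s56ecu_main_subgroup` this gives the unit identity `s56emg_unit_card` in `Nat.card` form, for
ARBITRARY models of `E/p`, `E[p]`, `𝔽_p`, `𝔽_p[T]`, `𝔽_p[S_∞]`.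
-/
import Mathlib
import Fermat.Agent.S56.GW.EC.Mult.G.Compat
import Fermat.Agent.S56.GW.EC.Unit.Main

set_option autoImplicit false
set_option linter.style.haveILetI false
set_option linter.unusedSectionVars false

namespace Fermat.Agent.S56

open MonoidAlgebra

section addinv

variable (p : ℕ) [Fact p.Prime] (B : Type) [Group B] [Finite B]
variable (X : Type) [AddCommGroup X] [DistribMulAction B X]

/-- `μ_X(M) = #Hom_B(X, M/p) / #Hom_B(X, M[p]) ∈ ℚ` for an abelian group `M` with `B`-action -/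
noncomputable def s56emg_muB (M : Type) [AddCommGroup M] [DistribMulAction B M] : ℚ :=
  letI := s56emg_mod B M
  letI := s56emg_mod B X
  s56emg_mu B p M X

theorem s56emg_muB_pos [Finite X] (M : Type) [AddCommGroup M] [DistribMulAction B M]
    [Module.Finite ℤ M] : 0 < s56emg_muB p B X M := by
  letI := s56emg_mod B M
  letI := s56emg_mod B X
  letI := Fintype.ofFinite B
  exact s56emg_mu_pos (C := B) (p := p) X M

/-- evaluation of `μ_X(M)` through arbitrary models of `M/p` and `M[p]` -/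
theorem s56emg_muB_eval (M : Type) [AddCommGroup M] [DistribMulAction B M]
    {Q : Type*} [AddCommGroup Q] [DistribMulAction B Q]
    (π : M →+[B] Q) (hπ : Function.Surjective π) (hker : ∀ t, π t = 0 ↔ ∃ s, t = p • s)
    {K : Type*} [AddCommGroup K] [DistribMulAction B K]
    (ι : K →+[B] M) (hι : Function.Injective ι) (hr : ∀ t, p • t = 0 ↔ ∃ k, ι k = t) :
    s56emg_muB p B X M = (Nat.card (X →+[B] Q) : ℚ) / (Nat.card (X →+[B] K) : ℚ) := by
  letI := s56emg_mod B M
  letI := s56emg_mod B X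
  have hM := s56emg_mod_compat B M
  have hX := s56emg_mod_compat B X
  show s56emg_mu B p M X = _
  unfold s56emg_mu
  rw [s56emg_a_eval X hM hX π hπ hker, s56emg_b_eval X hM hX ι hι hr]

/-- evaluation of `μ_X` on a permutation lattice -/
theorem s56emg_muB_perm (M : Type) [AddCommGroup M] [DistribMulAction B M]
    {Y : Type*} [MulAction B Y] (e : M ≃+ (Y → ℤ))
    (he : ∀ (b : B) (m : M) (y : Y), e (b • m) y = e m (b⁻¹ • y))
    {P : Type*} [AddCommGroup P] [DistribMulAction B P] (eP : P ≃+ (Y → ZMod p))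
    (heP : ∀ (b : B) (a : P) (y : Y), eP (b • a) y = eP a (b⁻¹ • y)) :
    s56emg_muB p B X M = (Nat.card (X →+[B] P) : ℚ) := by
  letI := s56emg_mod B M
  letI := s56emg_mod B X
  have hM := s56emg_mod_compat B M
  have hX := s56emg_mod_compat B X
  show s56emg_mu B p M X = _
  unfold s56emg_mu
  obtain ⟨h1, h2⟩ := s56emg_perm_eval (p := p) X hM hX e he eP heP
  rw [h1, h2, Nat.cast_one, div_one]

/-- `μ_X` is multiplicative on equivariant exact sequences `0 → M₁ → M₂ → M₃` with finite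
cokernel. -/
theorem s56emg_muB_add4 [Finite X] (hpB : ¬ p ∣ Nat.card B)
    (M₁ M₂ M₃ : Type) [AddCommGroup M₁] [AddCommGroup M₂] [AddCommGroup M₃]
    [DistribMulAction B M₁] [DistribMulAction B M₂] [DistribMulAction B M₃]
    [Module.Finite ℤ M₁] [Module.Finite ℤ M₂] [Module.Finite ℤ M₃]
    (ι : M₁ →+ M₂) (f : M₂ →+ M₃)
    (hι : ∀ (σ : B) (x : M₁), ι (σ • x) = σ • ι x) (hf : ∀ (σ : B) (x : M₂), f (σ • x) = σ • f x)
    (hinj : Function.Injective ι) (hex : ∀ y, f y = 0 ↔ ∃ x, ι x = y)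
    (hfin : Finite (M₃ ⧸ f.range)) :
    s56emg_muB p B X M₂ = s56emg_muB p B X M₁ * s56emg_muB p B X M₃ := by
  letI := s56emg_mod B M₁
  letI := s56emg_mod B M₂
  letI := s56emg_mod B M₃
  letI := s56emg_mod B X
  letI := Fintype.ofFinite B
  have hpC : ¬ p ∣ Fintype.card B := by rwa [← Nat.card_eq_fintype_card]
  have c₁ := s56emg_mod_compat B M₁
  have c₂ := s56emg_mod_compat B M₂
  have c₃ := s56emg_mod_compat B M₃
  let ι' : M₁ →ₗ[MonoidAlgebra ℤ B] M₂ := s56emg_mkLin ι (fun b x => by rw [c₁, c₂]; exact hι b x)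
  let f' : M₂ →ₗ[MonoidAlgebra ℤ B] M₃ := s56emg_mkLin f (fun b x => by rw [c₂, c₃]; exact hf b x)
  let V : Submodule (MonoidAlgebra ℤ B) M₃ := LinearMap.range f'
  haveI : Module.Finite ℤ V :=
    Module.Finite.of_surjective (f'.rangeRestrict.toAddMonoidHom.toIntLinearMap)
      f'.surjective_rangeRestrict
  -- the first short exact sequence
  have h1 : s56emg_mu B p M₂ X = s56emg_mu B p M₁ X * s56emg_mu B p V X := by
    refine s56emg_mu_ses (p := p) X hpC ι' f'.rangeRestrict hinj ?_ f'.surjective_rangeRestrict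
    intro y
    constructor
    · intro hy
      have hy' : f y = 0 := congrArg Subtype.val hy
      exact (hex y).mp hy'
    · rintro ⟨x, rfl⟩
      apply Subtype.ext
      exact (hex _).mpr ⟨x, rfl⟩
  -- the second one
  haveI : Finite (M₃ ⧸ V) := by
    let q : M₃ ⧸ f.range →+ M₃ ⧸ V :=
      QuotientAddGroup.lift f.range V.mkQ.toAddMonoidHom (by
        rintro _ ⟨y, rfl⟩
        show V.mkQ (f y) = 0
        rw [Submodule.mkQ_apply, Submodule.Quotient.mk_eq_zero]
        exact ⟨y, rfl⟩)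
    refine Finite.of_surjective q ?_
    intro z
    obtain ⟨m, rfl⟩ := Submodule.mkQ_surjective V z
    exact ⟨QuotientAddGroup.mk m, rfl⟩
  haveI : Module.Finite ℤ (M₃ ⧸ V) := Module.Finite.of_finite
  have h2 : s56emg_mu B p M₃ X = s56emg_mu B p V X * s56emg_mu B p (M₃ ⧸ V) X :=
    s56emg_mu_ses (p := p) X hpC V.subtype V.mkQ (Submodule.subtype_injective _)
      (LinearMap.exact_subtype_mkQ V) (Submodule.mkQ_surjective V)
  have h3 : s56emg_mu B p (M₃ ⧸ V) X = 1 := s56emg_mu_of_finite (p := p) X hpC _ (M₃ ⧸ V) rfl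
  show s56emg_mu B p M₂ X = s56emg_mu B p M₁ X * s56emg_mu B p M₃ X
  rw [h1, h2, h3, mul_one]

/-- **[EC-MULT]**: `μ_X` as an additive invariant with values in `Additive ℚˣ`. -/
noncomputable def s56emg_addInv [Finite X] (hpB : ¬ p ∣ Nat.card B) :
    s56ecu_AddInv B (Additive ℚˣ) where
  μ M _ _ := if h : s56emg_muB p B X M = 0 then 0 else Additive.ofMul (Units.mk0 _ h)
  add4 M₁ M₂ M₃ _ _ _ _ _ _ _ _ _ ι f hι hf hinj hex hfin := by
    have h := s56emg_muB_add4 p B X hpB M₁ M₂ M₃ ι f hι hf hinj hex hfin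
    have p₁ := (s56emg_muB_pos p B X M₁).ne'
    have p₂ := (s56emg_muB_pos p B X M₂).ne'
    have p₃ := (s56emg_muB_pos p B X M₃).ne'
    rw [dif_neg p₁, dif_neg p₂, dif_neg p₃, ← ofMul_mul]
    congr 1
    apply Units.ext
    simpa using h

theorem s56emg_addInv_val [Finite X] (hpB : ¬ p ∣ Nat.card B) (M : Type) [AddCommGroup M]
    [DistribMulAction B M] [Module.Finite ℤ M] :
    ((Additive.toMul ((s56emg_addInv p B X hpB).μ M) : ℚˣ) : ℚ) = s56emg_muB p B X M := by
  have p₁ := (s56emg_muB_pos p B X M).ne'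
  show ((Additive.toMul (if h : s56emg_muB p B X M = 0 then 0 else Additive.ofMul (Units.mk0 _ h)) :
    ℚˣ) : ℚ) = _
  rw [dif_neg p₁]
  rfl

end addinv

section unit

open NumberField IsDedekindDomain Fermat.Agent.S55

variable {F K : Type} [Field F] [NumberField F] [Field K] [NumberField K] [Algebra F K]

/-- positivity of `#Hom_B(X, K)` for a model `K` of `M[p]` -/
theorem s56emg_card_K_pos (p : ℕ) [Fact p.Prime] (B : Type) [Group B] [Finite B]
    (X : Type) [AddCommGroup X] [DistribMulAction B X] [Finite X]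
    (M : Type) [AddCommGroup M] [DistribMulAction B M] [Module.Finite ℤ M]
    {K : Type*} [AddCommGroup K] [DistribMulAction B K]
    (ι : K →+[B] M) (hι : Function.Injective ι) (hr : ∀ t, p • t = 0 ↔ ∃ k, ι k = t) :
    0 < Nat.card (X →+[B] K) := by
  letI := s56emg_mod B M
  letI := s56emg_mod B X
  letI := Fintype.ofFinite B
  have hM := s56emg_mod_compat B M
  have hX := s56emg_mod_compat B X
  rw [← s56emg_b_eval X hM hX ι hι hr]
  exact s56emg_b_pos (C := B) (p := p) X M

/-- **[EC-UNIT] + [EC-MULT], cardinality form.**  `K/F` number fields, `B ≤ Gal(K/F)` of order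
prime to `p`, `S` a finite set of primes of `F`, `T` the primes of `K` above `S`, `E = E_T` the
`T`-units of `K`; `X` a finite abelian group with `B`-action.  For ARBITRARY models `QE` of `E/p`,
`KE` of `E[p] = μ_p(K)`, `P₁` of `𝔽_p`, `PT` of `𝔽_p[T]`, `PI` of `𝔽_p[S_∞(K)]`:
`#Hom_B(X, E/p) · #Hom_B(X, 𝔽_p) = #Hom_B(X, E[p]) · #Hom_B(X, 𝔽_p[T]) · #Hom_B(X, 𝔽_p[S_∞])`. -/
theorem s56emg_unit_card (p : ℕ) [Fact p.Prime] (B : Subgroup Gal(K/F)) (hpB : ¬ p ∣ Nat.card B)
    (S : Finset (HeightOneSpectrum (𝓞 F)))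
    (X : Type) [AddCommGroup X] [DistribMulAction B X] [Finite X]
    {QE : Type*} [AddCommGroup QE] [DistribMulAction B QE]
    (π : Additive ↥(su_ET F K S) →+[B] QE) (hπ : Function.Surjective π)
    (hker : ∀ t, π t = 0 ↔ ∃ s, t = p • s)
    {KE : Type*} [AddCommGroup KE] [DistribMulAction B KE]
    (ι : KE →+[B] Additive ↥(su_ET F K S)) (hι : Function.Injective ι)
    (hr : ∀ t, p • t = 0 ↔ ∃ k, ι k = t)
    {P₁ : Type*} [AddCommGroup P₁] [DistribMulAction B P₁] (e₁ : P₁ ≃+ ZMod p)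
    (h₁ : ∀ (b : B) (a : P₁), b • a = a)
    {PT : Type*} [AddCommGroup PT] [DistribMulAction B PT]
    (eT : PT ≃+ (↥(su_primesAbove F K S) → ZMod p))
    (hT : ∀ (b : B) (a : PT) (y : ↥(su_primesAbove F K S)), eT (b • a) y = eT a (b⁻¹ • y))
    {PI : Type*} [AddCommGroup PI] [DistribMulAction B PI]
    (eI : PI ≃+ (InfinitePlace K → ZMod p))
    (hI : ∀ (b : B) (a : PI) (w : InfinitePlace K), eI (b • a) w = eI a (b⁻¹ • w)) :
    Nat.card (X →+[B] QE) * Nat.card (X →+[B] P₁) =
      Nat.card (X →+[B] KE) * (Nat.card (X →+[B] PT) * Nat.card (X →+[B] PI)) := by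
  have key := s56ecu_main_subgroup B (s56emg_addInv p B X hpB) S
  have key' := congrArg (fun a => ((Additive.toMul a : ℚˣ) : ℚ)) key
  simp only [toMul_add, Units.val_mul] at key'
  rw [s56emg_addInv_val, s56emg_addInv_val, s56emg_addInv_val, s56emg_addInv_val] at key'
  -- evaluations
  have hE := s56emg_muB_eval p B X (Additive ↥(su_ET F K S)) π hπ hker ι hι hr
  have hKpos := s56emg_card_K_pos p B X (Additive ↥(su_ET F K S)) ι hι hr
  have h1 : s56emg_muB p B X (s56ecu_Perm Gal(K/F) Unit) = (Nat.card (X →+[B] P₁) : ℚ) := by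
    refine s56emg_muB_perm p B X (s56ecu_Perm Gal(K/F) Unit)
      (s56ecu_Perm.addEquiv (G := Gal(K/F)) (X := Unit)) (fun b m y => ?_)
      (e₁.trans (AddEquiv.funUnique Unit (ZMod p)).symm) (fun b a y => ?_)
    · rfl
    · rw [h₁]
  have hT' : s56emg_muB p B X (s56ecu_Perm Gal(K/F) ↥(su_primesAbove F K S)) =
      (Nat.card (X →+[B] PT) : ℚ) :=
    s56emg_muB_perm p B X _ (s56ecu_Perm.addEquiv (G := Gal(K/F))
      (X := ↥(su_primesAbove F K S))) (fun b m y => rfl) eT hT
  have hI' : s56emg_muB p B X (s56ecu_Perm Gal(K/F) (InfinitePlace K)) =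
      (Nat.card (X →+[B] PI) : ℚ) :=
    s56emg_muB_perm p B X _ (s56ecu_Perm.addEquiv (G := Gal(K/F))
      (X := InfinitePlace K)) (fun b m y => rfl) eI hI
  rw [hE, h1, hT', hI'] at key'
  have hK0 : (Nat.card (X →+[B] KE) : ℚ) ≠ 0 := by positivity
  have : (Nat.card (X →+[B] QE) : ℚ) * Nat.card (X →+[B] P₁) =
      Nat.card (X →+[B] KE) * (Nat.card (X →+[B] PT) * Nat.card (X →+[B] PI)) := by
    field_simp at key'
    linear_combination key'
  exact_mod_cast this

end unit

end Fermat.Agent.S56
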