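/-
S56, node [GW-EC], cell [EC-MULT] (prefix `s56emg_`), part VI: the unit identity in the
[EC-BASE] interface form (`pX = 0`, so that `h_X(E[p]) = h_X(E)` and no model of `E[p]` is needed),
also for any `B`-module `E₀` equivariantly isomorphic to the `T`-units.
-/
import Mathlib
import Fermat.Agent.S56.GW.EC.Mult.AddInv
import Fermat.Agent.S56.GW.EC.Mult.Hx

set_option autoImplicit false
set_option linter.style.haveILetI false
set_option linter.unusedSectionVars false

namespace Fermat.Agent.S56

open MonoidAlgebra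

section general

variable (p : ℕ) [Fact p.Prime] (B : Type) [Group B] [Finite B]
variable (X : Type) [AddCommGroup X] [DistribMulAction B X]

/-- evaluation of `μ_X(M)` for `pX = 0`: no model of `M[p]` needed -/
theorem s56emg_muB_eval' (hX : ∀ x : X, p • x = 0) (M : Type) [AddCommGroup M]
    [DistribMulAction B M] {Q : Type*} [AddCommGroup Q] [DistribMulAction B Q]
    (π : M →+[B] Q) (hπ : Function.Surjective π) (hker : ∀ t, π t = 0 ↔ ∃ s, t = p • s) :
    s56emg_muB p B X M = (Nat.card (X →+[B] Q) : ℚ) / (Nat.card (X →+[B] M) : ℚ) := by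
  letI := s56emg_mod B M
  letI := s56emg_mod B X
  have hM := s56emg_mod_compat B M
  have cX := s56emg_mod_compat B X
  show s56emg_mu B p M X = _
  unfold s56emg_mu
  rw [s56emg_a_eval X hM cX π hπ hker, s56emg_b_eq_h M X hX, s56emg_card_hom cX hM]

/-- positivity of `h_X(M)` for `pX = 0`, `X` finite, `M` finitely generated -/
theorem s56emg_card_hom_pos [Finite X] (hX : ∀ x : X, p • x = 0) (M : Type) [AddCommGroup M]
    [DistribMulAction B M] [Module.Finite ℤ M] : 0 < Nat.card (X →+[B] M) := by
  letI := s56emg_mod B M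
  letI := s56emg_mod B X
  letI := Fintype.ofFinite B
  have hM := s56emg_mod_compat B M
  have cX := s56emg_mod_compat B X
  rw [s56emg_card_hom cX hM, ← s56emg_b_eq_h (p := p) M X hX]
  exact s56emg_b_pos (C := B) (p := p) X M

/-- `h_X` is invariant under equivariant isomorphisms of the target -/
theorem s56emg_card_hom_congr {M N : Type*} [AddCommGroup M] [DistribMulAction B M]
    [AddCommGroup N] [DistribMulAction B N] (e : M ≃+ N)
    (he : ∀ (b : B) (m : M), e (b • m) = b • e m) :
    Nat.card (X →+[B] M) = Nat.card (X →+[B] N) := by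
  have he' : ∀ (b : B) (n : N), e.symm (b • n) = b • e.symm n := by
    intro b n
    apply e.injective
    rw [he, e.apply_symm_apply, e.apply_symm_apply]
  refine Nat.card_congr
    { toFun := fun φ =>
        { toFun := fun x => e (φ x)
          map_smul' := fun b x => by
            show e (φ (b • x)) = b • e (φ x)
            rw [map_smul, he]
          map_zero' := by rw [map_zero, map_zero]
          map_add' := fun x y => by rw [map_add, map_add] }
      invFun := fun ψ =>
        { toFun := fun x => e.symm (ψ x)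
          map_smul' := fun b x => by
            show e.symm (ψ (b • x)) = b • e.symm (ψ x)
            rw [map_smul, he']
          map_zero' := by rw [map_zero, map_zero]
          map_add' := fun x y => by rw [map_add, map_add] }
      left_inv := fun φ => by
        ext x
        exact e.symm_apply_apply _
      right_inv := fun ψ => by
        ext x
        exact e.apply_symm_apply _ }

end general

section unit

open NumberField IsDedekindDomain Fermat.Agent.S55

variable {F K : Type} [Field F] [NumberField F] [Field K] [NumberField K] [Algebra F K]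

/-- **[EC-UNIT] + [EC-MULT]** in the [EC-BASE] interface form (`pX = 0`):
`h_X(E/p) · h_X(𝔽_p) = h_X(E) · h_X(𝔽_p[T]) · h_X(𝔽_p[S_∞])`, `E = E_T` the `T`-units of `K`. -/
theorem s56emg_unit_card' (p : ℕ) [Fact p.Prime] (B : Subgroup Gal(K/F)) (hpB : ¬ p ∣ Nat.card B)
    (S : Finset (HeightOneSpectrum (𝓞 F)))
    (X : Type) [AddCommGroup X] [DistribMulAction B X] [Finite X] (hX : ∀ x : X, p • x = 0)
    {QE : Type*} [AddCommGroup QE] [DistribMulAction B QE]
    (π : Additive ↥(su_ET F K S) →+[B] QE) (hπ : Function.Surjective π)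
    (hker : ∀ t, π t = 0 ↔ ∃ s, t = p • s)
    {P₁ : Type*} [AddCommGroup P₁] [DistribMulAction B P₁] (e₁ : P₁ ≃+ ZMod p)
    (h₁ : ∀ (b : B) (a : P₁), b • a = a)
    {PT : Type*} [AddCommGroup PT] [DistribMulAction B PT]
    (eT : PT ≃+ (↥(su_primesAbove F K S) → ZMod p))
    (hT : ∀ (b : B) (a : PT) (y : ↥(su_primesAbove F K S)), eT (b • a) y = eT a (b⁻¹ • y))
    {PI : Type*} [AddCommGroup PI] [DistribMulAction B PI]
    (eI : PI ≃+ (InfinitePlace K → ZMod p))
    (hI : ∀ (b : B) (a : PI) (w : InfinitePlace K), eI (b • a) w = eI a (b⁻¹ • w)) :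
    Nat.card (X →+[B] QE) * Nat.card (X →+[B] P₁) =
      Nat.card (X →+[B] Additive ↥(su_ET F K S)) *
        (Nat.card (X →+[B] PT) * Nat.card (X →+[B] PI)) := by
  have key := s56ecu_main_subgroup B (s56emg_addInv p B X hpB) S
  have key' := congrArg (fun a => ((Additive.toMul a : ℚˣ) : ℚ)) key
  simp only [toMul_add, Units.val_mul] at key'
  rw [s56emg_addInv_val, s56emg_addInv_val, s56emg_addInv_val, s56emg_addInv_val] at key'
  have hE := s56emg_muB_eval' p B X hX (Additive ↥(su_ET F K S)) π hπ hker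
  have hKpos := s56emg_card_hom_pos p B X hX (Additive ↥(su_ET F K S))
  have h1 : s56emg_muB p B X (s56ecu_Perm Gal(K/F) Unit) = (Nat.card (X →+[B] P₁) : ℚ) := by
    refine s56emg_muB_perm p B X (s56ecu_Perm Gal(K/F) Unit)
      (s56ecu_Perm.addEquiv (G := Gal(K/F)) (X := Unit)) (fun b m y => ?_)
      (e₁.trans (AddEquiv.funUnique Unit (ZMod p)).symm) (fun b a y => ?_)
    · rfl
    · rw [h₁]
  have hT' : s56emg_muB p B X (s56ecu_Perm Gal(K/F) ↥(su_primesAbove F K S)) =
      (Nat.card (X →+[B] PT) : ℚ) :=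
    s56emg_muB_perm p B X _ (s56ecu_Perm.addEquiv (G := Gal(K/F))
      (X := ↥(su_primesAbove F K S))) (fun b m y => rfl) eT hT
  have hI' : s56emg_muB p B X (s56ecu_Perm Gal(K/F) (InfinitePlace K)) =
      (Nat.card (X →+[B] PI) : ℚ) :=
    s56emg_muB_perm p B X _ (s56ecu_Perm.addEquiv (G := Gal(K/F))
      (X := InfinitePlace K)) (fun b m y => rfl) eI hI
  rw [hE, h1, hT', hI'] at key'
  have hK0 : (Nat.card (X →+[B] Additive ↥(su_ET F K S)) : ℚ) ≠ 0 := by positivity
  have : (Nat.card (X →+[B] QE) : ℚ) * Nat.card (X →+[B] P₁) =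
      Nat.card (X →+[B] Additive ↥(su_ET F K S)) *
        (Nat.card (X →+[B] PT) * Nat.card (X →+[B] PI)) := by
    field_simp at key'
    linear_combination key'
  exact_mod_cast this

/-- the same for any `B`-module `E₀` equivariantly isomorphic to the `T`-units (e.g. the level
invariants `lvH0 T_E` of [EC-BASE]) -/
theorem s56emg_unit_card_iso (p : ℕ) [Fact p.Prime] (B : Subgroup Gal(K/F))
    (hpB : ¬ p ∣ Nat.card B) (S : Finset (HeightOneSpectrum (𝓞 F)))
    (X : Type) [AddCommGroup X] [DistribMulAction B X] [Finite X] (hX : ∀ x : X, p • x = 0)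
    {E₀ : Type*} [AddCommGroup E₀] [DistribMulAction B E₀]
    (e : E₀ ≃+ Additive ↥(su_ET F K S)) (he : ∀ (b : B) (x : E₀), e (b • x) = b • e x)
    {QE : Type*} [AddCommGroup QE] [DistribMulAction B QE]
    (q : E₀ →+[B] QE) (hq : Function.Surjective q)
    (hker : ∀ t, q t = 0 ↔ ∃ s, t = p • s)
    {P₁ : Type*} [AddCommGroup P₁] [DistribMulAction B P₁] (e₁ : P₁ ≃+ ZMod p)
    (h₁ : ∀ (b : B) (a : P₁), b • a = a)
    {PT : Type*} [AddCommGroup PT] [DistribMulAction B PT]
    (eT : PT ≃+ (↥(su_primesAbove F K S) → ZMod p))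
    (hT : ∀ (b : B) (a : PT) (y : ↥(su_primesAbove F K S)), eT (b • a) y = eT a (b⁻¹ • y))
    {PI : Type*} [AddCommGroup PI] [DistribMulAction B PI]
    (eI : PI ≃+ (InfinitePlace K → ZMod p))
    (hI : ∀ (b : B) (a : PI) (w : InfinitePlace K), eI (b • a) w = eI a (b⁻¹ • w)) :
    Nat.card (X →+[B] QE) * Nat.card (X →+[B] P₁) =
      Nat.card (X →+[B] E₀) * (Nat.card (X →+[B] PT) * Nat.card (X →+[B] PI)) := by
  have he' : ∀ (b : B) (n : Additive ↥(su_ET F K S)), e.symm (b • n) = b • e.symm n := by
    intro b n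
    apply e.injective
    rw [he, e.apply_symm_apply, e.apply_symm_apply]
  let π : Additive ↥(su_ET F K S) →+[B] QE :=
    { toFun := fun t => q (e.symm t)
      map_smul' := fun b t => by
        show q (e.symm (b • t)) = b • q (e.symm t)
        rw [he', map_smul]
      map_zero' := by rw [map_zero, map_zero]
      map_add' := fun s t => by rw [map_add, map_add] }
  have hπ : Function.Surjective π := by
    intro y
    obtain ⟨x, rfl⟩ := hq y
    exact ⟨e x, by show q (e.symm (e x)) = q x; rw [e.symm_apply_apply]⟩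
  have hkerπ : ∀ t, π t = 0 ↔ ∃ s, t = p • s := by
    intro t
    show q (e.symm t) = 0 ↔ _
    rw [hker]
    constructor
    · rintro ⟨s, hs⟩
      refine ⟨e s, ?_⟩
      rw [← map_nsmul, ← hs, e.apply_symm_apply]
    · rintro ⟨s, rfl⟩
      exact ⟨e.symm s, by rw [map_nsmul]⟩
  rw [s56emg_card_hom_congr B X e he]
  exact s56emg_unit_card' p B hpB S X hX π hπ hkerπ e₁ h₁ eT hT eI hI

end unit

end Fermat.Agent.S56
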