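/-
S56, node [GW-EC], cell [EC-MULT] (prefix `s56emu_`, Mathlib only), part II.

For a `Λ = ℤ[C]`-module `T` put `K T := T[p]`, `Q T := T / p T`,
`a T := #Hom_Λ(X, Q T)`, `b T := #Hom_Λ(X, K T)` and `μ T := a T / b T ∈ ℚ`.
Snake lemma: `μ` is multiplicative on short exact sequences of `Λ`-modules that are finitely
generated over `ℤ`; `μ T = 1` for finite `T`.
-/
import Mathlib
import Fermat.Agent.S56.GW.EC.Mult.Exact

set_option autoImplicit false
set_option linter.style.haveILetI false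
set_option linter.unusedSectionVars false

namespace Fermat.Agent.S56

open MonoidAlgebra

section defs

variable (C : Type) [CommGroup C] (p : ℕ)
variable (T : Type*) [AddCommGroup T] [Module (MonoidAlgebra ℤ C) T]

/-- multiplication by `p` as a `Λ`-linear map -/
noncomputable def s56emu_mulp : T →ₗ[MonoidAlgebra ℤ C] T :=
  LinearMap.lsmul (MonoidAlgebra ℤ C) T ((p : ℕ) : MonoidAlgebra ℤ C)

@[simp] theorem s56emu_mulp_apply (t : T) : s56emu_mulp C p T t = p • t :=
  Nat.cast_smul_eq_nsmul (MonoidAlgebra ℤ C) p t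

/-- `T[p]` -/
noncomputable abbrev s56emu_K : Submodule (MonoidAlgebra ℤ C) T := LinearMap.ker (s56emu_mulp C p T)

/-- `T / p T` -/
abbrev s56emu_Q : Type _ := T ⧸ LinearMap.range (s56emu_mulp C p T)

theorem s56emu_K_killed (v : s56emu_K C p T) : p • v = 0 := by
  apply Subtype.ext
  have := v.2
  rw [LinearMap.mem_ker, s56emu_mulp_apply] at this
  simpa using this

theorem s56emu_Q_killed (v : s56emu_Q C p T) : p • v = 0 := by
  obtain ⟨t, rfl⟩ := Submodule.Quotient.mk_surjective _ v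
  rw [← Submodule.Quotient.mk_smul, Submodule.Quotient.mk_eq_zero]
  exact ⟨t, s56emu_mulp_apply C p T t⟩

theorem s56emu_K_finite [Module.Finite ℤ T] (hp : p ≠ 0) : Finite (s56emu_K C p T) := by
  haveI : IsNoetherian ℤ T := isNoetherian_of_isNoetherianRing_of_finite ℤ T
  haveI : Module.Finite ℤ ↥((s56emu_K C p T).restrictScalars ℤ) := Module.IsNoetherian.finite ℤ _
  have : Finite ↥((s56emu_K C p T).restrictScalars ℤ) := by
    refine Module.finite_of_fg_torsion _ ?_
    intro x
    refine ⟨⟨(p : ℤ), mem_nonZeroDivisors_of_ne_zero (by exact_mod_cast hp)⟩, ?_⟩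
    show (p : ℤ) • x = 0
    rw [Nat.cast_smul_eq_nsmul]
    exact s56emu_K_killed C p T x
  exact this

theorem s56emu_Q_finite [Module.Finite ℤ T] (hp : p ≠ 0) : Finite (s56emu_Q C p T) := by
  haveI : Module.Finite ℤ (s56emu_Q C p T) :=
    Module.Finite.of_surjective ((LinearMap.range (s56emu_mulp C p T)).mkQ.restrictScalars ℤ)
      (Submodule.mkQ_surjective _)
  refine Module.finite_of_fg_torsion _ ?_
  intro x
  refine ⟨⟨(p : ℤ), mem_nonZeroDivisors_of_ne_zero (by exact_mod_cast hp)⟩, ?_⟩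
  show (p : ℤ) • x = 0
  rw [Nat.cast_smul_eq_nsmul]
  exact s56emu_Q_killed C p T x

variable (X : Type*) [AddCommGroup X] [Module (MonoidAlgebra ℤ C) X]

/-- `#Hom_Λ(X, T / p)` -/
noncomputable def s56emu_a : ℕ := s56emu_h C X (s56emu_Q C p T)

/-- `#Hom_Λ(X, T[p])` -/
noncomputable def s56emu_b : ℕ := s56emu_h C X (s56emu_K C p T)

/-- `μ_X(T) = #Hom_Λ(X, T / p) / #Hom_Λ(X, T[p])` -/
noncomputable def s56emu_mu : ℚ := (s56emu_a C p T X : ℚ) / (s56emu_b C p T X : ℚ)

end defs

section snake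

variable {C : Type} [CommGroup C] [Fintype C] {p : ℕ} [Fact p.Prime]
variable {T₁ T₂ T₃ : Type*} [AddCommGroup T₁] [Module (MonoidAlgebra ℤ C) T₁]
  [AddCommGroup T₂] [Module (MonoidAlgebra ℤ C) T₂] [AddCommGroup T₃] [Module (MonoidAlgebra ℤ C) T₃]
variable (X : Type*) [AddCommGroup X] [Module (MonoidAlgebra ℤ C) X]

/-- the snake lemma for multiplication by `p`, in counting form -/
theorem s56emu_ab_ses (hpC : ¬ p ∣ Fintype.card C)
    (f₁ : T₁ →ₗ[MonoidAlgebra ℤ C] T₂) (f₂ : T₂ →ₗ[MonoidAlgebra ℤ C] T₃)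
    (hf₁ : Function.Injective f₁) (hex : Function.Exact f₁ f₂) (hf₂ : Function.Surjective f₂) :
    s56emu_b C p T₁ X * s56emu_b C p T₃ X * s56emu_a C p T₂ X =
      s56emu_b C p T₂ X * s56emu_a C p T₁ X * s56emu_a C p T₃ X := by
  set i₁ := s56emu_mulp C p T₁ with hi₁
  set i₂ := s56emu_mulp C p T₂ with hi₂
  set i₃ := s56emu_mulp C p T₃ with hi₃
  have h₁ : f₁ ∘ₗ i₁ = i₂ ∘ₗ f₁ := by
    ext t; simp [hi₁, hi₂, map_nsmul]
  have h₂ : f₂ ∘ₗ i₂ = i₃ ∘ₗ f₂ := by
    ext t; simp [hi₂, hi₃, map_nsmul]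
  -- the maps on kernels
  let F₁ : LinearMap.ker i₁ →ₗ[MonoidAlgebra ℤ C] LinearMap.ker i₂ :=
    f₁.restrict (fun x hx => by
      rw [LinearMap.mem_ker] at hx ⊢
      have := LinearMap.congr_fun h₁ x
      simp only [LinearMap.comp_apply] at this
      rw [← this, hx, map_zero])
  let F₂ : LinearMap.ker i₂ →ₗ[MonoidAlgebra ℤ C] LinearMap.ker i₃ :=
    f₂.restrict (fun x hx => by
      rw [LinearMap.mem_ker] at hx ⊢
      have := LinearMap.congr_fun h₂ x
      simp only [LinearMap.comp_apply] at this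
      rw [← this, hx, map_zero])
  -- the maps on cokernels
  let G₁ : (T₁ ⧸ LinearMap.range i₁) →ₗ[MonoidAlgebra ℤ C] (T₂ ⧸ LinearMap.range i₂) :=
    Submodule.mapQ _ _ f₁ (by
      rintro _ ⟨t, rfl⟩
      exact ⟨f₁ t, (LinearMap.congr_fun h₁ t).symm⟩)
  let G₂ : (T₂ ⧸ LinearMap.range i₂) →ₗ[MonoidAlgebra ℤ C] (T₃ ⧸ LinearMap.range i₃) :=
    Submodule.mapQ _ _ f₂ (by
      rintro _ ⟨t, rfl⟩
      exact ⟨f₂ t, (LinearMap.congr_fun h₂ t).symm⟩)
  let δ : LinearMap.ker i₃ →ₗ[MonoidAlgebra ℤ C] (T₁ ⧸ LinearMap.range i₁) :=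
    SnakeLemma.δ' i₁ i₂ i₃ f₁ f₂ hex f₁ f₂ hex h₁ h₂ (LinearMap.ker i₃).subtype
      (LinearMap.exact_subtype_ker_map i₃) (LinearMap.range i₁).mkQ
      (LinearMap.exact_map_mkQ_range i₁) hf₂ hf₁
  have e₁ : Function.Injective F₁ := by
    intro x y hxy
    apply Subtype.ext
    apply hf₁
    exact congrArg Subtype.val hxy
  have e₂ : Function.Exact F₁ F₂ := by
    intro y
    constructor
    · intro hy
      have hy' : f₂ (y : T₂) = 0 := congrArg Subtype.val hy
      obtain ⟨x, hx⟩ := (hex (y : T₂)).mp hy'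
      have hxk : x ∈ LinearMap.ker i₁ := by
        rw [LinearMap.mem_ker]
        apply hf₁
        have := LinearMap.congr_fun h₁ x
        simp only [LinearMap.comp_apply] at this
        rw [this, hx, map_zero]
        exact y.2
      exact ⟨⟨x, hxk⟩, Subtype.ext hx⟩
    · rintro ⟨x, rfl⟩
      apply Subtype.ext
      exact hex.apply_apply_eq_zero _
  have e₃ : Function.Exact F₂ δ :=
    SnakeLemma.exact_δ'_right i₁ i₂ i₃ f₁ f₂ hex f₁ f₂ hex h₁ h₂ (LinearMap.ker i₂).subtype
      (LinearMap.exact_subtype_ker_map i₂) (LinearMap.ker i₃).subtype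
      (LinearMap.exact_subtype_ker_map i₃) (LinearMap.range i₁).mkQ
      (LinearMap.exact_map_mkQ_range i₁) hf₂ hf₁ F₂ (by ext x; rfl)
      (Submodule.subtype_injective _)
  have e₄ : Function.Exact δ G₁ :=
    SnakeLemma.exact_δ'_left i₁ i₂ i₃ f₁ f₂ hex f₁ f₂ hex h₁ h₂ (LinearMap.ker i₃).subtype
      (LinearMap.exact_subtype_ker_map i₃) (LinearMap.range i₁).mkQ
      (LinearMap.exact_map_mkQ_range i₁) (LinearMap.range i₂).mkQ
      (LinearMap.exact_map_mkQ_range i₂) hf₂ hf₁ G₁ (by ext x; rfl)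
      (Submodule.mkQ_surjective _)
  have e₅ : Function.Exact G₁ G₂ := by
    intro y
    obtain ⟨t, rfl⟩ := Submodule.Quotient.mk_surjective _ y
    constructor
    · intro hy
      have hy' : Submodule.Quotient.mk (f₂ t) = (0 : T₃ ⧸ LinearMap.range i₃) := hy
      rw [Submodule.Quotient.mk_eq_zero] at hy'
      obtain ⟨z, hz⟩ := hy'
      obtain ⟨w, rfl⟩ := hf₂ z
      have h3 : f₂ (t - i₂ w) = 0 := by
        rw [map_sub]
        have := LinearMap.congr_fun h₂ w
        simp only [LinearMap.comp_apply] at this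
        rw [this, hz, sub_self]
      obtain ⟨u, hu⟩ := (hex _).mp h3
      refine ⟨Submodule.Quotient.mk u, ?_⟩
      show Submodule.Quotient.mk (f₁ u) = Submodule.Quotient.mk t
      rw [hu, Submodule.Quotient.mk_sub, sub_eq_self, Submodule.Quotient.mk_eq_zero]
      exact ⟨w, rfl⟩
    · rintro ⟨x, hx⟩
      obtain ⟨u, rfl⟩ := Submodule.Quotient.mk_surjective _ x
      have hx' : Submodule.Quotient.mk (f₁ u) = (Submodule.Quotient.mk t :
          T₂ ⧸ LinearMap.range i₂) := hx
      show G₂ (Submodule.Quotient.mk t) = 0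
      rw [← hx']
      show Submodule.Quotient.mk (f₂ (f₁ u)) = (0 : T₃ ⧸ LinearMap.range i₃)
      rw [hex.apply_apply_eq_zero, Submodule.Quotient.mk_zero]
  have e₆ : Function.Surjective G₂ := by
    intro y
    obtain ⟨t, rfl⟩ := Submodule.Quotient.mk_surjective _ y
    obtain ⟨w, rfl⟩ := hf₂ t
    exact ⟨Submodule.Quotient.mk w, rfl⟩
  have := s56emu_h_six X hpC (s56emu_K_killed C p T₁) (s56emu_K_killed C p T₂)
    (s56emu_K_killed C p T₃) (s56emu_Q_killed C p T₁) (s56emu_Q_killed C p T₂)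
    F₁ F₂ δ G₁ G₂ e₁ e₂ e₃ e₄ e₅ e₆
  unfold s56emu_a s56emu_b
  exact this

end snake

section mu

variable {C : Type} [CommGroup C] [Fintype C] {p : ℕ} [Fact p.Prime]
variable (X : Type*) [AddCommGroup X] [Module (MonoidAlgebra ℤ C) X]

theorem s56emu_a_of_subsingleton (T : Type*) [AddCommGroup T] [Module (MonoidAlgebra ℤ C) T]
    [Subsingleton T] : s56emu_a C p T X = 1 := by
  unfold s56emu_a
  exact s56emu_h_of_subsingleton X

theorem s56emu_b_of_subsingleton (T : Type*) [AddCommGroup T] [Module (MonoidAlgebra ℤ C) T]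
    [Subsingleton T] : s56emu_b C p T X = 1 := by
  unfold s56emu_b
  exact s56emu_h_of_subsingleton X

theorem s56emu_a_pos [Finite X] (T : Type*) [AddCommGroup T] [Module (MonoidAlgebra ℤ C) T]
    [Module.Finite ℤ T] : 0 < s56emu_a C p T X := by
  haveI := s56emu_Q_finite C p T (Fact.out : p.Prime).ne_zero
  exact s56emu_h_pos X

theorem s56emu_b_pos [Finite X] (T : Type*) [AddCommGroup T] [Module (MonoidAlgebra ℤ C) T]
    [Module.Finite ℤ T] : 0 < s56emu_b C p T X := by
  haveI := s56emu_K_finite C p T (Fact.out : p.Prime).ne_zero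
  exact s56emu_h_pos X

theorem s56emu_mu_pos [Finite X] (T : Type*) [AddCommGroup T] [Module (MonoidAlgebra ℤ C) T]
    [Module.Finite ℤ T] : 0 < s56emu_mu C p T X := by
  unfold s56emu_mu
  have h1 := s56emu_a_pos (C := C) (p := p) X T
  have h2 := s56emu_b_pos (C := C) (p := p) X T
  positivity

/-- `μ` is multiplicative on short exact sequences -/
theorem s56emu_mu_ses [Finite X] (hpC : ¬ p ∣ Fintype.card C)
    {T₁ T₂ T₃ : Type*} [AddCommGroup T₁] [Module (MonoidAlgebra ℤ C) T₁]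
    [AddCommGroup T₂] [Module (MonoidAlgebra ℤ C) T₂] [AddCommGroup T₃]
    [Module (MonoidAlgebra ℤ C) T₃] [Module.Finite ℤ T₁] [Module.Finite ℤ T₂] [Module.Finite ℤ T₃]
    (f₁ : T₁ →ₗ[MonoidAlgebra ℤ C] T₂) (f₂ : T₂ →ₗ[MonoidAlgebra ℤ C] T₃)
    (hf₁ : Function.Injective f₁) (hex : Function.Exact f₁ f₂) (hf₂ : Function.Surjective f₂) :
    s56emu_mu C p T₂ X = s56emu_mu C p T₁ X * s56emu_mu C p T₃ X := by
  have h := s56emu_ab_ses X hpC f₁ f₂ hf₁ hex hf₂
  have b1 := s56emu_b_pos (C := C) (p := p) X T₁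
  have b2 := s56emu_b_pos (C := C) (p := p) X T₂
  have b3 := s56emu_b_pos (C := C) (p := p) X T₃
  unfold s56emu_mu
  have hq : (s56emu_b C p T₁ X : ℚ) * s56emu_b C p T₃ X * s56emu_a C p T₂ X =
      s56emu_b C p T₂ X * s56emu_a C p T₁ X * s56emu_a C p T₃ X := by exact_mod_cast h
  have c1 : (s56emu_b C p T₁ X : ℚ) ≠ 0 := by positivity
  have c2 : (s56emu_b C p T₂ X : ℚ) ≠ 0 := by positivity
  have c3 : (s56emu_b C p T₃ X : ℚ) ≠ 0 := by positivity
  field_simp
  linear_combination hq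

/-- `μ` is invariant under isomorphisms -/
theorem s56emu_mu_congr [Finite X] (hpC : ¬ p ∣ Fintype.card C)
    {T T' : Type*} [AddCommGroup T] [Module (MonoidAlgebra ℤ C) T]
    [AddCommGroup T'] [Module (MonoidAlgebra ℤ C) T'] [Module.Finite ℤ T] [Module.Finite ℤ T']
    (e : T ≃ₗ[MonoidAlgebra ℤ C] T') : s56emu_mu C p T X = s56emu_mu C p T' X := by
  have h := s56emu_mu_ses (p := p) X hpC (T₃ := PUnit.{1}) e.toLinearMap
    (0 : T' →ₗ[MonoidAlgebra ℤ C] PUnit.{1}) e.injective
    (fun y => ⟨fun _ => e.surjective y, fun _ => rfl⟩) (fun _ => ⟨0, Subsingleton.elim _ _⟩)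
  rw [h]
  have : s56emu_mu C p PUnit.{1} X = 1 := by
    unfold s56emu_mu
    rw [s56emu_a_of_subsingleton, s56emu_b_of_subsingleton]
    simp
  rw [this, mul_one]

/-- `μ V = 1` for a finite module killed by `p` -/
theorem s56emu_mu_of_killed [Finite X] (V : Type*) [AddCommGroup V] [Module (MonoidAlgebra ℤ C) V]
    [Finite V] (hV : ∀ v : V, p • v = 0) : s56emu_mu C p V X = 1 := by
  have hK : s56emu_K C p V = ⊤ := by
    rw [eq_top_iff]
    intro v _
    rw [LinearMap.mem_ker, s56emu_mulp_apply]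
    exact hV v
  have hR : LinearMap.range (s56emu_mulp C p V) = ⊥ := by
    rw [eq_bot_iff]
    rintro _ ⟨v, rfl⟩
    rw [s56emu_mulp_apply, hV]
    exact Submodule.zero_mem _
  have ha : s56emu_a C p V X = s56emu_h C X V :=
    s56emu_h_congr X (Submodule.quotEquivOfEqBot _ hR)
  have hb : s56emu_b C p V X = s56emu_h C X V :=
    s56emu_h_congr X ((LinearEquiv.ofEq _ _ hK).trans Submodule.topEquiv)
  unfold s56emu_mu
  rw [ha, hb]
  have := s56emu_h_pos (C := C) X (V := V)
  have h0 : (s56emu_h C X V : ℚ) ≠ 0 := by positivity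
  exact div_self h0

/-- `μ T = 1` for a finite module -/
theorem s56emu_mu_of_finite [Finite X] (hpC : ¬ p ∣ Fintype.card C) :
    ∀ (n : ℕ) (T : Type) [AddCommGroup T] [Module (MonoidAlgebra ℤ C) T] [Finite T],
      Nat.card T = n → s56emu_mu C p T X = 1 := by
  intro n
  induction n using Nat.strong_induction_on with
  | _ n ih =>
    intro T _ _ _ hn
    haveI : Module.Finite ℤ T := Module.Finite.of_finite
    set N : Submodule (MonoidAlgebra ℤ C) T := LinearMap.range (s56emu_mulp C p T) with hN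
    by_cases htop : N = ⊤
    · -- multiplication by `p` is bijective
      have hsurj : Function.Surjective (s56emu_mulp C p T) := LinearMap.range_eq_top.mp htop
      have hinj : Function.Injective (s56emu_mulp C p T) :=
        Finite.injective_iff_surjective.mpr hsurj
      haveI : Subsingleton (s56emu_K C p T) := by
        show Subsingleton ↥(LinearMap.ker (s56emu_mulp C p T))
        rw [LinearMap.ker_eq_bot.mpr hinj]; infer_instance
      haveI : Subsingleton (s56emu_Q C p T) := by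
        show Subsingleton (T ⧸ N)
        rw [htop]; infer_instance
      unfold s56emu_mu s56emu_a s56emu_b
      rw [s56emu_h_of_subsingleton, s56emu_h_of_subsingleton]
      simp
    · -- `0 → pT → T → T/pT → 0`
      have hlt : Nat.card N < n := by
        rw [← hn]
        have hne : ∃ t : T, t ∉ N := by
          by_contra hcon
          push Not at hcon
          exact htop (eq_top_iff.mpr fun t _ => hcon t)
        obtain ⟨t, ht⟩ := hne
        have : Nat.card N < Nat.card T := by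
          haveI := Fintype.ofFinite T
          haveI := Fintype.ofFinite N
          rw [Nat.card_eq_fintype_card (α := N), Nat.card_eq_fintype_card (α := T)]
          exact Fintype.card_lt_of_injective_of_notMem (Subtype.val) Subtype.val_injective
            (b := t) (by rintro ⟨x, rfl⟩; exact ht x.2)
        exact this
      have h1 := ih _ hlt N rfl
      have h2 := s56emu_mu_ses (p := p) X hpC N.subtype N.mkQ (Submodule.subtype_injective _)
        (LinearMap.exact_subtype_mkQ N) (Submodule.mkQ_surjective N)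
      haveI : Finite (T ⧸ N) := Finite.of_surjective N.mkQ (Submodule.mkQ_surjective N)
      have h3 : s56emu_mu C p (T ⧸ N) X = 1 :=
        s56emu_mu_of_killed X (T ⧸ N) (s56emu_Q_killed C p T)
      rw [h2, h1, h3, mul_one]

end mu

end Fermat.Agent.S56
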